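/-
P-MW row 785 (helper98): **GTA-5** the points dictionary of a product of two coprime ideals
(`Fermat.Agent.H3.MW.PtDataMulStatement`): append / block diagonal / stack.
-/
import Fermat.Agent.H3.MW.Interfaces

set_option autoImplicit false
set_option linter.style.haveILetI false
set_option linter.unusedSectionVars false
set_option linter.unusedSimpArgs false

noncomputable section

open Module Polynomial

namespace Fermat.Agent.H98.MW

open Fermat.Agent.H92.MW Fermat.Agent.H3.MW

section matrix

variable {K : Type*} {d d' n : ℕ}

@[simp] theorem blockM_castAdd_castAdd [Zero K] (M : Matrix (Fin d) (Fin d) K)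
    (M' : Matrix (Fin d') (Fin d') K) (a b : Fin d) :
    blockM M M' (Fin.castAdd d' a) (Fin.castAdd d' b) = M a b := by
  simp [blockM]

@[simp] theorem blockM_castAdd_natAdd [Zero K] (M : Matrix (Fin d) (Fin d) K)
    (M' : Matrix (Fin d') (Fin d') K) (a : Fin d) (b : Fin d') :
    blockM M M' (Fin.castAdd d' a) (Fin.natAdd d b) = 0 := by
  simp [blockM]

@[simp] theorem blockM_natAdd_castAdd [Zero K] (M : Matrix (Fin d) (Fin d) K)
    (M' : Matrix (Fin d') (Fin d') K) (a : Fin d') (b : Fin d) :
    blockM M M' (Fin.natAdd d a) (Fin.castAdd d' b) = 0 := by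
  simp [blockM]

@[simp] theorem blockM_natAdd_natAdd [Zero K] (M : Matrix (Fin d) (Fin d) K)
    (M' : Matrix (Fin d') (Fin d') K) (a b : Fin d') :
    blockM M M' (Fin.natAdd d a) (Fin.natAdd d b) = M' a b := by
  simp [blockM]

@[simp] theorem stackE_castAdd (E : Matrix (Fin d) (Fin n) K) (E' : Matrix (Fin d') (Fin n) K)
    (a : Fin d) (j : Fin n) : stackE E E' (Fin.castAdd d' a) j = E a j := by
  simp [stackE]

@[simp] theorem stackE_natAdd (E : Matrix (Fin d) (Fin n) K) (E' : Matrix (Fin d') (Fin n) K)
    (a : Fin d') (j : Fin n) : stackE E E' (Fin.natAdd d a) j = E' a j := by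
  simp [stackE]

theorem blockM_eq_fromBlocks [Zero K] (M : Matrix (Fin d) (Fin d) K)
    (M' : Matrix (Fin d') (Fin d') K) :
    blockM M M' =
      (Matrix.fromBlocks M 0 0 M').submatrix finSumFinEquiv.symm finSumFinEquiv.symm := by
  ext a b
  induction a using Fin.addCases with
  | left a =>
    induction b using Fin.addCases with
    | left b => simp
    | right b => simp
  | right a =>
    induction b using Fin.addCases with
    | left b => simp
    | right b => simp

/-- The determinant of a block diagonal matrix. -/
theorem det_blockM [CommRing K] (M : Matrix (Fin d) (Fin d) K)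
    (M' : Matrix (Fin d') (Fin d') K) : (blockM M M').det = M.det * M'.det := by
  rw [blockM_eq_fromBlocks, Matrix.det_submatrix_equiv_self, Matrix.det_fromBlocks_zero₂₁]

/-- Block diagonal times stack. -/
theorem blockM_mul_stackE [CommRing K] (M : Matrix (Fin d) (Fin d) K)
    (M' : Matrix (Fin d') (Fin d') K) (E : Matrix (Fin d) (Fin n) K)
    (E' : Matrix (Fin d') (Fin n) K) :
    blockM M M' * stackE E E' = stackE (M * E) (M' * E') := by
  ext a j
  induction a using Fin.addCases with
  | left a => simp [Matrix.mul_apply, Fin.sum_univ_add]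
  | right a => simp [Matrix.mul_apply, Fin.sum_univ_add]

theorem stackE_map {L : Type*} (f : K → L) (E : Matrix (Fin d) (Fin n) K)
    (E' : Matrix (Fin d') (Fin n) K) :
    (stackE E E').map f = stackE (E.map f) (E'.map f) := by
  ext a j
  induction a using Fin.addCases with
  | left a => simp
  | right a => simp

theorem stackE_mulVec [CommRing K] (E : Matrix (Fin d) (Fin n) K)
    (E' : Matrix (Fin d') (Fin n) K) (c : Fin n → K) :
    (stackE E E').mulVec c = Fin.append (E.mulVec c) (E'.mulVec c) := by
  ext a
  induction a using Fin.addCases with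
  | left a => simp [Matrix.mulVec, dotProduct]
  | right a => simp [Matrix.mulVec, dotProduct]

theorem append_eq_zero_iff {α : Type*} [Zero α] (u : Fin d → α) (v : Fin d' → α) :
    Fin.append u v = 0 ↔ u = 0 ∧ v = 0 := by
  constructor
  · intro h
    refine ⟨funext fun a => ?_, funext fun a => ?_⟩
    · have := congrFun h (Fin.castAdd d' a)
      simpa using this
    · have := congrFun h (Fin.natAdd d a)
      simpa using this
  · rintro ⟨rfl, rfl⟩
    ext a
    induction a using Fin.addCases with
    | left a => simp
    | right a => simp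

end matrix

variable {R : Type} [CommRing R] [Algebra ℚ R] [IsDedekindDomain R]

theorem evalMatrix_append (𝒞 : MWDatum R) (m : ℕ) {d d' : ℕ} (P : Fin d → (R →ₐ[ℚ] QQbar))
    (P' : Fin d' → (R →ₐ[ℚ] QQbar)) :
    evalMatrix 𝒞 m (Fin.append P P') = stackE (evalMatrix 𝒞 m P) (evalMatrix 𝒞 m P') := by
  ext a j
  induction a using Fin.addCases with
  | left a => simp [evalMatrix]
  | right a => simp [evalMatrix]

/-- **GTA-5** the points dictionary of a product of two coprime ideals. -/
theorem ptDataMul (𝒞 : MWDatum R) : PtDataMulStatement 𝒞 := by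
  intro I J d d' P M E P' M' E' hIJ htc h1 h2
  obtain ⟨hP, hPI, hM, hev, hker, hch⟩ := h1
  obtain ⟨hP', hPJ, hM', hev', hker', hch'⟩ := h2
  have hne : ∀ (a : Fin d) (b : Fin d'), P a ≠ P' b := by
    intro a b hab
    obtain ⟨x, hx, y, hy, hxy⟩ := Submodule.mem_sup.1 (hIJ ▸ (Submodule.mem_top : (1 : R) ∈ ⊤))
    have h1 : P a (x + y) = 1 := by rw [hxy, map_one]
    rw [map_add, hPI a x hx, hab, hPJ b y hy, add_zero] at h1
    exact zero_ne_one h1
  refine ⟨?_, ?_, ?_, ?_, ?_, ?_⟩
  · -- injectivity
    intro a b hab
    induction a using Fin.addCases with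
    | left a =>
      induction b using Fin.addCases with
      | left b =>
        rw [Fin.append_left, Fin.append_left] at hab
        rw [hP hab]
      | right b =>
        rw [Fin.append_left, Fin.append_right] at hab
        exact absurd hab (hne a b)
    | right a =>
      induction b using Fin.addCases with
      | left b =>
        rw [Fin.append_right, Fin.append_left] at hab
        exact absurd hab.symm (hne b a)
      | right b =>
        rw [Fin.append_right, Fin.append_right] at hab
        rw [hP' hab]
  · -- vanishing
    intro a x hx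
    have hx' := Ideal.mul_le_inf hx
    induction a using Fin.addCases with
    | left a =>
      rw [Fin.append_left]
      exact hPI a x hx'.1
    | right a =>
      rw [Fin.append_right]
      exact hPJ a x hx'.2
  · rw [det_blockM]
    exact mul_ne_zero hM hM'
  · intro m
    rw [evalMatrix_append, hev m, hev' m, stackE_map, blockM_mul_stackE]
  · intro m w
    rw [stackE_mulVec, append_eq_zero_iff, hker m w, hker' m w,
      Ideal.mul_eq_inf_of_coprime hIJ, Ideal.mem_inf]
  · rw [htc, Polynomial.map_mul, hch, hch', Fin.prod_univ_add]
    simp only [Fin.append_left, Fin.append_right]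

end Fermat.Agent.H98.MW

end
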