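/-
P-MW row 850 (helper98): **[LPF-G-ASM]** `geo_of_parts`: the place system with centres
(`GeoStatement 𝒞`) from the finite places (`FinSystem 𝒞`), the place `∞` (`InfPlace 𝒞`) and
jets (`JetsRbStatement 𝒞`).
-/
import Fermat.Agent.H89.MW.LpfGeoInterfaces

set_option autoImplicit false
set_option linter.style.haveILetI false
set_option linter.unusedSectionVars false
set_option linter.unusedSimpArgs false

noncomputable section

open Module TensorProduct

namespace Fermat.Agent.H98.MW.Geo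

open Fermat.Agent.H92.MW Fermat.Agent.H89.MW

variable {R : Type} [CommRing R] [Algebra ℚ R] [IsDedekindDomain R] {𝒞 : MWDatum R}

/-! ### The places -/

section places

variable (Fs : FinSystem 𝒞) (Ip : InfPlace 𝒞)

/-- the local rings of the place system: `∞` and the finite places -/
def geoO : Option Fs.Pl → Type
  | none => Ip.O
  | some c => Fs.O c

instance geoCommRing : ∀ c, CommRing (geoO Fs Ip c)
  | none => inferInstanceAs (CommRing Ip.O)
  | some c => inferInstanceAs (CommRing (Fs.O c))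

instance geoIsDomain : ∀ c, IsDomain (geoO Fs Ip c)
  | none => inferInstanceAs (IsDomain Ip.O)
  | some c => inferInstanceAs (IsDomain (Fs.O c))

instance geoDvr : ∀ c, IsDiscreteValuationRing (geoO Fs Ip c)
  | none => inferInstanceAs (IsDiscreteValuationRing Ip.O)
  | some c => inferInstanceAs (IsDiscreteValuationRing (Fs.O c))

instance geoAlgebra : ∀ c, Algebra QQbar (geoO Fs Ip c)
  | none => inferInstanceAs (Algebra QQbar Ip.O)
  | some c => inferInstanceAs (Algebra QQbar (Fs.O c))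

/-- uniformizers -/
def geoU : ∀ c, geoO Fs Ip c
  | none => Ip.u
  | some c => Fs.u c

/-- normalisation exponents -/
def geoEps : Option Fs.Pl → ℕ
  | none => 1
  | some _ => 0

/-- germs -/
def geoGerm : ∀ (c : Option Fs.Pl) (m : ℕ), WBar 𝒞 m →ₗ[QQbar] geoO Fs Ip c
  | none, m => Ip.germ m
  | some c, m => (Fs.emb c).toLinearMap ∘ₗ (WBar 𝒞 m).subtype

theorem geoU_irr : ∀ c, Irreducible (geoU Fs Ip c)
  | none => Ip.u_irr
  | some c => Fs.u_irr c

theorem geoRes : ∀ (c : Option Fs.Pl) (h : geoO Fs Ip c), ∃ a : QQbar,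
    h - algebraMap QQbar (geoO Fs Ip c) a ∈ IsLocalRing.maximalIdeal (geoO Fs Ip c)
  | none => Ip.res
  | some c => Fs.res c

theorem geoEft : ∀ c : Option Fs.Pl, ∃ S : Finset (geoO Fs Ip c), ∀ h : geoO Fs Ip c,
    ∃ p q : geoO Fs Ip c,
      p ∈ Algebra.adjoin QQbar (S : Set (geoO Fs Ip c)) ∧
      q ∈ Algebra.adjoin QQbar (S : Set (geoO Fs Ip c)) ∧ IsUnit q ∧ h * q = p
  | none => Ip.eft
  | some c => Fs.eft c

end places

/-! ### Jets -/

section jets

variable (Fs : FinSystem 𝒞) (Ip : InfPlace 𝒞)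

open Classical in
theorem sum_option_eq (s : Finset (Option Fs.Pl)) (n : Option Fs.Pl → ℕ) :
    ∑ c ∈ s, n c = ∑ c ∈ s.eraseNone, n (some c) + if none ∈ s then n none else 0 := by
  rw [Finset.sum_eraseNone (fun c => n (some c)) s, ← Finset.sum_ite_eq' s none n,
    ← Finset.sum_add_distrib]
  refine Finset.sum_congr rfl fun x _ => ?_
  cases x with
  | none => simp
  | some c => simp

theorem geoJets (hJ : JetsRbStatement 𝒞) (m : ℕ) (s : Finset (Option Fs.Pl))
    (n : Option Fs.Pl → ℕ) (hsum : (∑ c ∈ s, n c) + 𝒞.m₀ ≤ m)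
    (y : ∀ c : Option Fs.Pl, Fin (n c) → QQbar) :
    ∃ f : WBar 𝒞 m, ∀ c ∈ s,
      geoGerm Fs Ip c m f
        - ∑ j : Fin (n c), algebraMap QQbar (geoO Fs Ip c) (y c j) * geoU Fs Ip c ^ (j : ℕ)
        ∈ Ideal.span {geoU Fs Ip c ^ n c} := by
  classical
  -- the finite part
  have hYex : ∀ c : Fs.Pl, ∃ Y : QQbar ⊗[ℚ] R,
      Fs.emb c Y - ∑ j : Fin (n (some c)),
        algebraMap QQbar (Fs.O c) (y (some c) j) * Fs.u c ^ (j : ℕ)
        ∈ Ideal.span {Fs.u c ^ n (some c)} := fun c => Fs.emb_surj c (n (some c)) _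
  choose Y hY using hYex
  let nI : Ideal (QQbar ⊗[ℚ] R) → ℕ := fun 𝔪 =>
    if h : ∃ c, Fs.ideal c = 𝔪 then n (some h.choose) else 0
  let yI : Ideal (QQbar ⊗[ℚ] R) → QQbar ⊗[ℚ] R := fun 𝔪 =>
    if h : ∃ c, Fs.ideal c = 𝔪 then Y h.choose else 0
  have hch : ∀ c : Fs.Pl, (⟨c, rfl⟩ : ∃ c', Fs.ideal c' = Fs.ideal c).choose = c := fun c =>
    Fs.ideal_inj (⟨c, rfl⟩ : ∃ c', Fs.ideal c' = Fs.ideal c).choose_spec
  have hnI : ∀ c : Fs.Pl, nI (Fs.ideal c) = n (some c) := by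
    intro c
    have h : ∃ c', Fs.ideal c' = Fs.ideal c := ⟨c, rfl⟩
    show (if h : ∃ c', Fs.ideal c' = Fs.ideal c then n (some h.choose) else 0) = _
    rw [dif_pos h, hch c]
  have hyI : ∀ c : Fs.Pl, yI (Fs.ideal c) = Y c := by
    intro c
    have h : ∃ c', Fs.ideal c' = Fs.ideal c := ⟨c, rfl⟩
    show (if h : ∃ c', Fs.ideal c' = Fs.ideal c then Y h.choose else 0) = _
    rw [dif_pos h, hch c]
  let sI : Finset (Ideal (QQbar ⊗[ℚ] R)) := s.eraseNone.image Fs.ideal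
  let nInf : ℕ := if none ∈ s then n none else 0
  have hsumI : ∑ 𝔪 ∈ sI, nI 𝔪 = ∑ c ∈ s.eraseNone, n (some c) := by
    rw [Finset.sum_image (fun a _ b _ h => Fs.ideal_inj h)]
    exact Finset.sum_congr rfl fun c _ => hnI c
  have hbound : (∑ 𝔪 ∈ sI, nI 𝔪) + nInf + 𝒞.m₀ ≤ m := by
    rw [hsumI, ← sum_option_eq Fs s n]
    exact hsum
  have hmax : ∀ 𝔪 ∈ sI, 𝔪.IsMaximal := by
    intro 𝔪 h𝔪
    obtain ⟨c, -, rfl⟩ := Finset.mem_image.1 h𝔪
    exact Fs.ideal_max c
  -- the infinite part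
  have hgex : ∃ g : WBar 𝒞 m, none ∈ s →
      Ip.germ m g - ∑ j : Fin (n none), algebraMap QQbar Ip.O (y none j) * Ip.u ^ (j : ℕ)
        ∈ Ideal.span {Ip.u ^ n none} := by
    by_cases hs : none ∈ s
    · have hle : n none + 𝒞.m₀ ≤ m :=
        (Nat.add_le_add_right (Finset.single_le_sum (fun _ _ => Nat.zero_le _) hs) _).trans hsum
      obtain ⟨g, hg⟩ := Ip.germ_surj m (n none) hle
        (∑ j : Fin (n none), algebraMap QQbar Ip.O (y none j) * Ip.u ^ (j : ℕ))
      exact ⟨g, fun _ => hg⟩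
    · exact ⟨0, fun h => absurd h hs⟩
  obtain ⟨g, hg⟩ := hgex
  obtain ⟨f, hf, hfin, hinf⟩ := hJ m nInf sI nI hmax hbound yI (g : QQbar ⊗[ℚ] R) g.2
  refine ⟨⟨f, hf⟩, fun c hc => ?_⟩
  cases c with
  | none =>
    have hnInf : nInf = n none := if_pos hc
    have hle : n none ≤ m :=
      (Finset.single_le_sum (fun _ _ => Nat.zero_le _) hc).trans
        ((Nat.le_add_right _ _).trans hsum)
    rw [hnInf] at hinf
    have h1 : Ip.germ m (⟨f, hf⟩ - g) ∈ Ideal.span {Ip.u ^ n none} :=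
      (Ip.germ_mem m (n none) (⟨f, hf⟩ - g) hle).2 hinf
    rw [map_sub] at h1
    have h2 := Ideal.add_mem _ h1 (hg hc)
    rw [sub_add_sub_cancel] at h2
    exact h2
  | some c =>
    have hcs : c ∈ s.eraseNone := Finset.mem_eraseNone.2 hc
    have h1 := hfin (Fs.ideal c) (Finset.mem_image_of_mem _ hcs)
    rw [hnI, hyI] at h1
    have h2 : Fs.emb c (f - Y c) ∈ Ideal.span {Fs.u c ^ n (some c)} :=
      (Fs.emb_mem c (n (some c)) (f - Y c)).2 h1
    rw [map_sub] at h2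
    have h3 := Ideal.add_mem _ h2 (hY c)
    rw [sub_add_sub_cancel] at h3
    exact h3

end jets

/-- The place system assembled from the finite places and the place `∞`. -/
def geoSystem (Fs : FinSystem 𝒞) (Ip : InfPlace 𝒞) (hJ : JetsRbStatement 𝒞) :
    PlaceSystem 𝒞 where
  Pl := Option Fs.Pl
  O := geoO Fs Ip
  commRing := geoCommRing Fs Ip
  isDomain := geoIsDomain Fs Ip
  dvr := geoDvr Fs Ip
  algebra := geoAlgebra Fs Ip
  u := geoU Fs Ip
  ε := geoEps Fs
  u_irr := geoU_irr Fs Ip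
  res := geoRes Fs Ip
  eft := geoEft Fs Ip
  germ := geoGerm Fs Ip
  jets := geoJets Fs Ip hJ

/-! ### Centres -/

section centre

/-- A homomorphism `O → 𝒦` through the residue field `ℚ̄` (used for the places which are not
the centre of a point). -/
theorem exists_hom {O : Type} [CommRing O] [IsLocalRing O] [Algebra QQbar O]
    (res : ∀ h : O, ∃ a : QQbar, h - algebraMap QQbar O a ∈ IsLocalRing.maximalIdeal O)
    {𝒦 : Type} [Field 𝒦] (ι : QQbar →+* 𝒦) : Nonempty (O →+* 𝒦) := by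
  let φ : QQbar →+* IsLocalRing.ResidueField O :=
    (IsLocalRing.residue O).comp (algebraMap QQbar O)
  have hbij : Function.Bijective φ := ⟨φ.injective, fun x => by
    obtain ⟨h, rfl⟩ := IsLocalRing.residue_surjective x
    obtain ⟨a, ha⟩ := res h
    refine ⟨a, ?_⟩
    have h0 := (IsLocalRing.residue_eq_zero_iff _).2 ha
    rw [map_sub, sub_eq_zero] at h0
    exact h0.symm⟩
  exact ⟨ι.comp ((RingEquiv.ofBijective φ hbij).symm.toRingHom.comp (IsLocalRing.residue O))⟩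

theorem geoCentre (Fs : FinSystem 𝒞) (Ip : InfPlace 𝒞) (hJ : JetsRbStatement 𝒞) :
    CentreStatement 𝒞 (geoSystem Fs Ip hJ) := by
  intro 𝒦 _ _ _ V hV ι
  classical
  have hex : ∀ P : R →ₐ[ℚ] 𝒦, ∃ (c : Option Fs.Pl) (l : geoO Fs Ip c →+* 𝒦),
      (∀ h, l h ∈ V) ∧ (∀ a : QQbar, l (algebraMap QQbar (geoO Fs Ip c) a) = ι a) ∧
      V.valuation (l (geoU Fs Ip c)) < 1 ∧
      V.valuation (l (geoU Fs Ip c)) ^ (geoEps Fs c * 𝒞.e) * max 1 (V.valuation (P 𝒞.t)) = 1 ∧
      ∀ (m : ℕ) (f : 𝒞.W m), l (geoGerm Fs Ip c m (toWBar 𝒞 m f))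
        = P (f : R) * l (geoU Fs Ip c) ^ (geoEps Fs c * m) := by
    intro P
    by_cases hP : ∀ r : R, P r ∈ V
    · obtain ⟨c, loc, h1, h2, h3, h4⟩ := Fs.centre 𝒦 V hV ι P hP
      refine ⟨some c, loc, h1, h2, h3, ?_, ?_⟩
      · show V.valuation (loc (Fs.u c)) ^ (0 * 𝒞.e) * max 1 (V.valuation (P 𝒞.t)) = 1
        rw [zero_mul, pow_zero, one_mul, max_eq_left]
        exact (V.valuation_le_one_iff _).2 (hP _)
      · intro m f
        show loc (Fs.emb c ((1 : QQbar) ⊗ₜ[ℚ] (f : R))) = P (f : R) * loc (Fs.u c) ^ (0 * m)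
        rw [zero_mul, pow_zero, mul_one, h4]
    · obtain ⟨loc, h1, h2, h3, h4, h5⟩ := Ip.centre 𝒦 V hV ι P (not_forall.1 hP)
      refine ⟨none, loc, h1, h2, h3, ?_, ?_⟩
      · show V.valuation (loc Ip.u) ^ (1 * 𝒞.e) * max 1 (V.valuation (P 𝒞.t)) = 1
        rw [one_mul]
        exact h4
      · intro m f
        show loc (Ip.germ m (toWBar 𝒞 m f)) = P (f : R) * loc Ip.u ^ (1 * m)
        rw [one_mul]
        exact h5 m f
  choose cen l hl using hex
  have hjunk : ∀ c : Option Fs.Pl, Nonempty (geoO Fs Ip c →+* 𝒦) := fun c =>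
    exists_hom (geoRes Fs Ip c) (ι : QQbar →+* 𝒦)
  refine ⟨cen, fun c P => if h : c = cen P then h ▸ l P else (hjunk c).some, fun P => ?_⟩
  have hloc : (if h : cen P = cen P then h ▸ l P else (hjunk (cen P)).some) = l P := by
    rw [dif_pos rfl]
  simp only [hloc]
  exact hl P

end centre

/-- **[LPF-G-ASM]** the geometry from the finite places, the place `∞` and jets. -/
theorem geo_of_parts (𝒞 : MWDatum R) (Fs : FinSystem 𝒞) (Ip : InfPlace 𝒞)
    (hJ : JetsRbStatement 𝒞) : GeoStatement 𝒞 :=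
  ⟨geoSystem Fs Ip hJ, geoCentre Fs Ip hJ⟩

end Fermat.Agent.H98.MW.Geo

end
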